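/-
S15, route W (report 339): shared definitions.

* `IsSEP A u` : `u : GQ → Qb` has SEPARATED VARIABLES ON THE INERTIA GROUP of `A`:
  `u t = ∑ a_i t(b_i)` for all `t ∈ I_A`, with `a_i, b_i ∈ A`.
* `FlatCoc A z` : the local condition at `r` for a cocycle `z : GQ → V`: for every character `ψ` of `V` the function
  `t ↦ t (ψ (z t⁻¹))` is SEP.  (No action on `V` is needed for the definition.)
* closure properties: `one`, `mul`, `add`, `pow`, `conj`; `FlatCoc.map` (any additive map), `add`, `neg`, `zero`,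
  `of_injective`.
* bridge from `S19.IsSep`.
-/
import Fermat.Agent.S15.Sel.Defs
import Fermat.Agent.S19.A.Sep

set_option autoImplicit false
set_option linter.unusedSectionVars false

namespace Fermat.Agent.S15.W

open Fermat.Agent.S15.Sel

/-- separated variables on the inertia group of `A`. -/
def IsSEP (A : ValuationSubring Qb) (u : GQ → Qb) : Prop :=
  ∃ (n : ℕ) (a b : Fin n → Qb), (∀ i, a i ∈ A) ∧ (∀ i, b i ∈ A) ∧
    ∀ t ∈ Ine A, u t = ∑ i, a i * t (b i)

variable {A : ValuationSubring Qb}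

theorem IsSEP.of_fintype {ι : Type*} [Fintype ι] {u : GQ → Qb} (a b : ι → Qb)
    (ha : ∀ i, a i ∈ A) (hb : ∀ i, b i ∈ A) (h : ∀ t ∈ Ine A, u t = ∑ i, a i * t (b i)) :
    IsSEP A u := by
  classical
  let e := Fintype.equivFin ι
  refine ⟨Fintype.card ι, a ∘ e.symm, b ∘ e.symm, fun i => ha _, fun i => hb _, fun t ht => ?_⟩
  rw [h t ht]
  exact (Equiv.sum_comp e.symm fun i => a i * t (b i)).symm

theorem IsSEP.congr {u v : GQ → Qb} (hu : IsSEP A u) (h : ∀ t ∈ Ine A, u t = v t) : IsSEP A v := by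
  obtain ⟨n, a, b, ha, hb, hab⟩ := hu
  exact ⟨n, a, b, ha, hb, fun t ht => by rw [← h t ht, hab t ht]⟩

theorem IsSEP.const {c : Qb} (hc : c ∈ A) : IsSEP A (fun _ => c) :=
  IsSEP.of_fintype (ι := Unit) (fun _ => c) (fun _ => 1) (fun _ => hc) (fun _ => A.one_mem)
    (fun t _ => by simp)

theorem IsSEP.one : IsSEP A (fun _ => 1) := IsSEP.const A.one_mem

theorem IsSEP.conj {c : Qb} (hc : c ∈ A) : IsSEP A (fun t => t c) :=
  IsSEP.of_fintype (ι := Unit) (fun _ => 1) (fun _ => c) (fun _ => A.one_mem) (fun _ => hc)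
    (fun t _ => by simp)

theorem IsSEP.add {u v : GQ → Qb} (hu : IsSEP A u) (hv : IsSEP A v) : IsSEP A (u + v) := by
  obtain ⟨n, a, b, ha, hb, hab⟩ := hu
  obtain ⟨m, a', b', ha', hb', hab'⟩ := hv
  refine IsSEP.of_fintype (ι := Fin n ⊕ Fin m) (Sum.elim a a') (Sum.elim b b') ?_ ?_ ?_
  · rintro (i | i)
    · exact ha i
    · exact ha' i
  · rintro (i | i)
    · exact hb i
    · exact hb' i
  · intro t ht
    rw [Pi.add_apply, hab t ht, hab' t ht, Fintype.sum_sum_type]
    rfl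

theorem IsSEP.mul {u v : GQ → Qb} (hu : IsSEP A u) (hv : IsSEP A v) : IsSEP A (u * v) := by
  obtain ⟨n, a, b, ha, hb, hab⟩ := hu
  obtain ⟨m, a', b', ha', hb', hab'⟩ := hv
  refine IsSEP.of_fintype (ι := Fin n × Fin m) (fun p => a p.1 * a' p.2) (fun p => b p.1 * b' p.2)
    (fun p => A.mul_mem _ _ (ha _) (ha' _)) (fun p => A.mul_mem _ _ (hb _) (hb' _)) ?_
  intro t ht
  rw [Pi.mul_apply, hab t ht, hab' t ht, Finset.sum_mul_sum, Fintype.sum_prod_type]
  refine Finset.sum_congr rfl fun i _ => Finset.sum_congr rfl fun j _ => ?_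
  rw [map_mul]
  ring

theorem IsSEP.pow {u : GQ → Qb} (hu : IsSEP A u) (n : ℕ) : IsSEP A (u ^ n) := by
  induction n with
  | zero => rw [pow_zero]; exact IsSEP.one
  | succ n ih => rw [pow_succ]; exact ih.mul hu

/-- the inverse of a SEP function with values in the `m`-th roots of unity is SEP. -/
theorem IsSEP.inv_of_pow_eq_one {u : GQ → Qb} (hu : IsSEP A u) {m : ℕ} (hm : m ≠ 0)
    (h : ∀ t ∈ Ine A, u t ^ m = 1) : IsSEP A (fun t => (u t)⁻¹) := by
  refine (hu.pow (m - 1)).congr fun t ht => ?_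
  have h1 := h t ht
  have hu0 : u t ≠ 0 := by
    intro h0
    rw [h0, zero_pow hm] at h1
    exact zero_ne_one h1
  obtain ⟨k, rfl⟩ : ∃ k, m = k + 1 := ⟨m - 1, by omega⟩
  rw [Pi.pow_apply, Nat.add_sub_cancel]
  rw [pow_succ] at h1
  exact eq_inv_of_mul_eq_one_left h1

/-- **bridge**: `S19.IsSep` for any group `Γ` acting on `Qb` through which the inertia group acts. -/
theorem IsSEP.of_isSep {Γ : Type*} [Group Γ] (β : Γ →* RingAut Qb) (j : GQ → Γ)
    (hj : ∀ t ∈ Ine A, ∀ x : Qb, β (j t) x = t x) {v : Γ → Qb} (hv : S19.IsSep β A v)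
    {u : GQ → Qb} (huv : ∀ t ∈ Ine A, u t = v (j t)) : IsSEP A u := by
  obtain ⟨n, a, b, ha, hb, hab⟩ := hv
  refine ⟨n, a, b, ha, fun i => ?_, fun t ht => ?_⟩
  · have := hb i (j 1)
    rwa [hj 1 (Ine A).one_mem] at this
  · rw [huv t ht, hab]
    exact Finset.sum_congr rfl fun i _ => by rw [hj t ht]

section flat

variable {V V' : Type*} [AddCommGroup V] [AddCommGroup V']

/-- the local condition at the residue characteristic. -/
def FlatCoc (A : ValuationSubring Qb) (z : GQ → V) : Prop :=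
  ∀ ψ : AddChar V Qb, IsSEP A (fun t => t (ψ (z t⁻¹)))

theorem FlatCoc.zero : FlatCoc A (0 : GQ → V) := by
  intro ψ
  refine (IsSEP.one (A := A)).congr fun t _ => ?_
  simp

theorem FlatCoc.add {z z' : GQ → V} (h : FlatCoc A z) (h' : FlatCoc A z') : FlatCoc A (z + z') := by
  intro ψ
  refine ((h ψ).mul (h' ψ)).congr fun t _ => ?_
  simp only [Pi.mul_apply, Pi.add_apply, AddChar.map_add_eq_mul, map_mul]

theorem FlatCoc.neg {z : GQ → V} (h : FlatCoc A z) : FlatCoc A (-z) := by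
  intro ψ
  refine (h ψ⁻¹).congr fun t _ => ?_
  simp only [Pi.neg_apply, AddChar.inv_apply]

theorem FlatCoc.sub {z z' : GQ → V} (h : FlatCoc A z) (h' : FlatCoc A z') : FlatCoc A (z - z') := by
  rw [sub_eq_add_neg]
  exact h.add h'.neg

/-- closure under ANY additive map (Hecke operators, idempotents, push-forward, quotient maps). -/
theorem FlatCoc.map {z : GQ → V} (h : FlatCoc A z) (f : V →+ V') : FlatCoc A (fun σ => f (z σ)) := by
  intro ψ
  exact h (ψ.compAddMonoidHom f)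

theorem FlatCoc.nsmul {z : GQ → V} (h : FlatCoc A z) (n : ℕ) : FlatCoc A (n • z) :=
  h.map (nsmulAddMonoidHom n)

/-- characters of a subgroup of a finite abelian group extend. -/
theorem exists_addChar_comp [Finite V'] (j : V →+ V') (hj : Function.Injective j)
    (ψ : AddChar V Qb) : ∃ ψ' : AddChar V' Qb, ∀ x, ψ' (j x) = ψ x := by
  classical
  let J : Multiplicative V →* Multiplicative V' := AddMonoidHom.toMultiplicative j
  have hJ : Function.Injective J := hj
  let e : Multiplicative V ≃* J.range := MonoidHom.ofInjective hJ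
  let φ0 : Multiplicative V →* Qbˣ := (ψ.toMonoidHom).toHomUnits
  let φH : J.range →* Qbˣ := φ0.comp e.symm.toMonoidHom
  have hne : Monoid.exponent (Multiplicative V') ≠ 0 := Monoid.exponent_ne_zero_of_finite
  have : NeZero ((Monoid.exponent (Multiplicative V') : ℕ) : ℚ) := ⟨by exact_mod_cast hne⟩
  obtain ⟨φ, hφ⟩ := MonoidHom.domRestrict_surjective (M := Qb) J.range φH
  refine ⟨AddChar.toMonoidHomEquiv.symm ((Units.coeHom Qb).comp φ), fun x => ?_⟩
  have h1 : φ (J (Multiplicative.ofAdd x)) = φH ⟨J (Multiplicative.ofAdd x), ⟨_, rfl⟩⟩ := by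
    rw [← hφ]; rfl
  have h2 : e.symm ⟨J (Multiplicative.ofAdd x), ⟨_, rfl⟩⟩ = Multiplicative.ofAdd x := by
    rw [MulEquiv.symm_apply_eq]; rfl
  show ((φ (J (Multiplicative.ofAdd x)) : Qbˣ) : Qb) = ψ x
  rw [h1]
  show ((φ0 (e.symm ⟨J (Multiplicative.ofAdd x), ⟨_, rfl⟩⟩) : Qbˣ) : Qb) = ψ x
  rw [h2]
  rfl

/-- a cocycle with values in a subgroup. -/
theorem FlatCoc.of_injective [Finite V'] {z : GQ → V} (j : V →+ V') (hj : Function.Injective j)
    (h : FlatCoc A (fun σ => j (z σ))) : FlatCoc A z := by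
  intro ψ
  obtain ⟨ψ', hψ'⟩ := exists_addChar_comp j hj ψ
  refine (h ψ').congr fun t _ => ?_
  simp only [hψ']

end flat

end Fermat.Agent.S15.W
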