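import Fermat.Agent.S15.W.Loc
import Fermat.Agent.S15.W.Defs
import Fermat.Agent.S15.D.Defs

/-!
# S15, route W: the predicate `IsSEP (P.pl r)` satisfies `D.SHyp`

(C1), (C2) in the shape used by Theorem D.
-/

set_option autoImplicit false

namespace Fermat.Agent.S15.W

open Fermat.Agent.S15.Sel

variable (A : ValuationSubring Qb) {r : ℕ} (hr : r.Prime) (hA : A.LiesOverPrime r)

include hr hA

/-- **(C2)** -/
theorem IsSEP.c2 (α : Qb) (hα : α ≠ 0) (h : IsSEP A (fun t => α / t α)) :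
    ∃ n : ℤ, A.valuation α = A.valuation (r : Qb) ^ n := by
  obtain ⟨n, a, b, ha, hb, hab⟩ := h
  obtain ⟨c, hc, hc0, hv⟩ := exists_fixed_valuation_eq A hr hA α hα a b ha hb hab
  obtain ⟨k, hk⟩ := exists_zpow_of_fixed A hr hA hc0 hc
  exact ⟨k, hv.trans hk⟩

/-- **(C1)** -/
theorem IsSEP.c1 (hr2 : r ≠ 2) (b : GQ → Qb) (hpow : ∀ s, b s ^ r = 1)
    (hmul : ∀ s t, b (s * t) = b s * b t) (h : IsSEP A (fun t => t (b t⁻¹))) :
    ∀ s ∈ Ine A, b s = 1 := by
  obtain ⟨n, a, c, ha, hc, hab⟩ := h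
  exact eq_one_of_sep A hr hA hr2 b (fun s _ t _ => hmul s t) (fun t _ => hpow t) a c ha hc hab

omit hr hA in
/-- `IsSEP (P.pl r)` has all the properties needed by Theorem D. -/
theorem sHyp (P : Places) {r : ℕ} (hr : r.Prime) : D.SHyp P r (IsSEP (P.pl r)) where
  one := IsSEP.one
  mul := fun _ _ h h' => h.mul h'
  c2 := IsSEP.c2 (P.pl r) hr (P.lies r hr)
  c1 := IsSEP.c1 (P.pl r) hr (P.lies r hr)

omit hr hA in
/-- the two notions of flatness agree (definitionally). -/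
theorem flatCoc_iff {V : Type*} [AddCommGroup V] (z : GQ → V) :
    D.FlatCoc (IsSEP A) z ↔ FlatCoc A z := Iff.rfl

end Fermat.Agent.S15.W
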