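import Mathlib
import Fermat.Agent.S15.Sel.Defs
import Fermat.Agent.S36R.K0.Artin
import Fermat.Agent.S36R.K0.BlockL
import Fermat.Agent.S36R.K0.DVRL

/-!
# S15, route W, local lemmas at `r`: the basis lemma (L0)

`A` a place of `Qb` above the prime `r`, `K0 = Qb^{I_A}`, `O0 = A ∩ K0` (a DVR with uniformiser `r`).
Finitely many elements of `A` lie in the `O0`-span of a `K0`-independent family of elements of `A`.
-/

set_option autoImplicit false
set_option linter.style.haveILetI false

noncomputable section

namespace Fermat.Agent.S15.W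

open Fermat.Agent.S15.Sel Fermat.Agent.S36R Fermat.Agent.S36R.K0L

variable (A : ValuationSubring Qb) {r : ℕ} (hr : r.Prime) (hA : A.LiesOverPrime r)

include hr hA

/-- **(L0)** the basis lemma. -/
theorem exists_basis {n : ℕ} (x : Fin n → Qb) (hx : ∀ k, x k ∈ A) :
    ∃ (m : ℕ) (w : Fin m → Qb) (o : Fin n → Fin m → Qb),
      (∀ j, w j ∈ A) ∧
      (∀ a : Fin m → Qb, (∀ j, ∀ σ ∈ Ine A, σ (a j) = a j) → ∑ j, w j * a j = 0 → a = 0) ∧
      (∀ k j, o k j ∈ A) ∧ (∀ k j, ∀ σ ∈ Ine A, σ (o k j) = o k j) ∧
      (∀ k, x k = ∑ j, o k j * w j) := by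
  classical
  haveI : IsDiscreteValuationRing (OI A) := isDiscreteValuationRing_OI A hr hA
  let f : OI A →+* Qb := (algebraMap (KI A) Qb).comp (OI A).subtype
  have hfinj : Function.Injective f :=
    (algebraMap (KI A) Qb).injective.comp Subtype.val_injective
  have hfA : ∀ c : OI A, f c ∈ A := fun c => c.2
  have hffix : ∀ c : OI A, ∀ σ ∈ Ine A, σ (f c) = f c := fun c σ hσ =>
    (IntermediateField.mem_fixedField_iff _ _).1 (c : KI A).2 σ hσ
  have hsm : ∀ (c : OI A) (y : Qb), c • y = f c * y := fun _ _ => rfl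
  haveI : Module.IsTorsionFree (OI A) Qb := Module.IsTorsionFree.of_smul_eq_zero fun c y h => by
    rw [hsm, mul_eq_zero] at h
    exact h.imp (fun h => hfinj (by rw [h, map_zero])) id
  let M : Submodule (OI A) Qb := Submodule.span (OI A) (Set.range x)
  haveI : Module.Finite (OI A) M := Module.Finite.span_of_finite _ (Set.finite_range x)
  haveI : Module.IsTorsionFree (OI A) M :=
    Function.Injective.moduleIsTorsionFree (N := Qb) (fun y : M => (y : Qb)) Subtype.val_injective
      fun _ _ => rfl
  haveI : Module.Free (OI A) M := Module.free_of_finite_type_torsion_free'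
  let b := Module.finBasis (OI A) M
  have hMA : ∀ y ∈ M, y ∈ A := by
    intro y hy
    induction hy using Submodule.span_induction with
    | mem y hy => obtain ⟨k, rfl⟩ := hy; exact hx k
    | zero => exact A.zero_mem
    | add y z _ _ hy hz => exact A.add_mem _ _ hy hz
    | smul c y _ hy => rw [hsm]; exact A.mul_mem _ _ (hfA c) hy
  have hxM : ∀ k, x k ∈ M := fun k => Submodule.subset_span ⟨k, rfl⟩
  have hli : LinearIndependent (OI A) (fun j => (b j : Qb)) :=
    b.linearIndependent.map' M.subtype (Submodule.ker_subtype M)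
  have hli' : LinearIndependent (KI A) (fun j => (b j : Qb)) :=
    (LinearIndependent.iff_fractionRing (OI A) (KI A)).1 hli
  refine ⟨_, fun j => (b j : Qb), fun k j => f (b.repr ⟨x k, hxM k⟩ j), fun j => hMA _ (b j).2, ?_,
    fun k j => hfA _, fun k j => hffix _, fun k => ?_⟩
  · intro a ha h0
    rw [Fintype.linearIndependent_iff] at hli'
    funext j
    have h1 := hli' (fun j => ⟨a j, (IntermediateField.mem_fixedField_iff _ _).2 (ha j)⟩) (by
      rw [← h0]
      refine Finset.sum_congr rfl fun j _ => ?_
      rw [Algebra.smul_def, mul_comm]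
      rfl) j
    exact congrArg Subtype.val h1
  · have h1 := congrArg Subtype.val (b.sum_repr ⟨x k, hxM k⟩)
    rw [AddSubmonoidClass.coe_finsetSum] at h1
    exact h1.symm

end Fermat.Agent.S15.W

end
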