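import Mathlib
import Fermat.Agent.S15.W.LocBasis
import Fermat.Agent.S15.Sel.ArVal
import Fermat.Agent.S19.A.Sep

/-!
# S15, route W, local lemmas at `r`: (C1) and (C2)

`A` a place of `Qb` above the prime `r`, `I = Ine A` its inertia group.  A function `u` on `I` has SEPARATED VARIABLES if
`u t = ∑ i, a i * t (b i)` with `a i, b i ∈ A`.  All statements are definition-free (the data `n a b` are explicit).

* `coeff_fixed` (LY): if `t y = ∑ C j * t (w j)` on `I` with `w` independent over `K0 = Qb^I`, then the `C j` are in `K0`.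
* `div_mem_of_sep` (LX): if `t y = ∑ M k * t (x k)` on `I`, `M k ∈ 𝔪_A`, `x k ∈ A`, then `y / r ∈ A`.
* `exists_fixed_valuation_eq`, `dvd_padicValRat_of_sep` (C2): `t ↦ α / t α` separated ⇒ `v(α) ∈ v(K0ˣ)`;
  if moreover `α ^ e ∈ ℚ` then `e ∣ ord_r (α ^ e)`.
* `eq_one_of_sep` (C1): `r` odd, `f` a character of `I` of exponent `r`, `t ↦ t (f t⁻¹)` separated ⇒ `f = 1` on `I`.
-/

set_option autoImplicit false

noncomputable section

namespace Fermat.Agent.S15.W

open Fermat.Agent.S15.Sel Fermat.Agent.S36R Fermat.Agent.S36R.K0L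

variable (A : ValuationSubring Qb)

/-- `s (u (s⁻¹ t))` in terms of an expansion of `u`. -/
theorem twist_expansion {m : ℕ} (w C : Fin m → Qb) (u : GQ → Qb)
    (h : ∀ t ∈ Ine A, u t = ∑ j, C j * t (w j)) {s t : GQ} (hs : s ∈ Ine A) (ht : t ∈ Ine A) :
    s (u (s⁻¹ * t)) = ∑ j, s (C j) * t (w j) := by
  rw [h _ ((Ine A).mul_mem ((Ine A).inv_mem hs) ht), map_sum]
  refine Finset.sum_congr rfl fun j _ => ?_
  rw [map_mul, AlgEquiv.mul_apply, ← AlgEquiv.mul_apply s, mul_inv_cancel, AlgEquiv.one_apply]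

/-- **(LY)** -/
theorem coeff_fixed {m : ℕ} (w C : Fin m → Qb)
    (hw : ∀ a : Fin m → Qb, (∀ j, ∀ σ ∈ Ine A, σ (a j) = a j) → ∑ j, w j * a j = 0 → a = 0)
    (y : Qb) (h : ∀ t ∈ Ine A, t y = ∑ j, C j * t (w j)) : ∀ j, ∀ s ∈ Ine A, s (C j) = C j := by
  intro j s hs
  have h1 := artin_indep (Ine A) w (fun j => s (C j) - C j) hw (fun t ht => by
    have h2 := twist_expansion A w C (fun t => t y) h hs ht
    simp only [AlgEquiv.mul_apply] at h2
    rw [← AlgEquiv.mul_apply s, mul_inv_cancel, AlgEquiv.one_apply, h t ht] at h2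
    simp only [sub_mul, Finset.sum_sub_distrib]
    rw [h2, sub_self])
  exact sub_eq_zero.1 (congrFun h1 j)

variable {r : ℕ} (hr : r.Prime) (hA : A.LiesOverPrime r)

include hr hA

/-- re-expansion of a separated function in a `K0`-independent family. -/
theorem exists_expansion {n : ℕ} (a b : Fin n → Qb) (hb : ∀ i, b i ∈ A) :
    ∃ (m : ℕ) (w : Fin m → Qb) (o : Fin n → Fin m → Qb),
      (∀ j, w j ∈ A) ∧
      (∀ a : Fin m → Qb, (∀ j, ∀ σ ∈ Ine A, σ (a j) = a j) → ∑ j, w j * a j = 0 → a = 0) ∧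
      (∀ k j, o k j ∈ A) ∧
      (∀ t ∈ Ine A, ∑ i, a i * t (b i) = ∑ j, (∑ i, a i * o i j) * t (w j)) := by
  obtain ⟨m, w, o, hwA, hw, hoA, hofix, hxo⟩ := exists_basis A hr hA b hb
  refine ⟨m, w, o, hwA, hw, hoA, fun t ht => ?_⟩
  simp only [Finset.sum_mul]
  rw [Finset.sum_comm]
  refine Finset.sum_congr rfl fun i _ => ?_
  rw [hxo i, map_sum, Finset.mul_sum]
  refine Finset.sum_congr rfl fun j _ => ?_
  rw [map_mul, hofix i j t ht, mul_assoc]

omit hr hA in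
theorem sum_mul_mem {n : ℕ} (a o : Fin n → Qb) (ha : ∀ i, a i ∈ A) (ho : ∀ i, o i ∈ A) :
    ∑ i, a i * o i ∈ A :=
  sum_mem fun i _ => A.mul_mem _ _ (ha i) (ho i)

omit hr hA in
theorem sum_mul_mem_nonunits {n : ℕ} (a o : Fin n → Qb) (ha : ∀ i, a i ∈ A.nonunits)
    (ho : ∀ i, o i ∈ A) : ∑ i, a i * o i ∈ A.nonunits := by
  rw [ValuationSubring.mem_nonunits_iff]
  refine Valuation.map_sum_lt _ one_ne_zero fun i _ => ?_
  rw [map_mul]
  exact mul_lt_one_of_lt_of_le ((ValuationSubring.mem_nonunits_iff A).1 (ha i))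
    ((A.valuation_le_one_iff _).2 (ho i))

/-- **(LX)** -/
theorem div_mem_of_sep {n : ℕ} (y : Qb) (M x : Fin n → Qb) (hM : ∀ k, M k ∈ A.nonunits)
    (hx : ∀ k, x k ∈ A) (h : ∀ t ∈ Ine A, t y = ∑ k, M k * t (x k)) : y / (r : Qb) ∈ A := by
  obtain ⟨m, w, o, hwA, hw, hoA, hex⟩ := exists_expansion A hr hA M x hx
  have h1 : ∀ t ∈ Ine A, t y = ∑ j, (∑ i, M i * o i j) * t (w j) := fun t ht => by
    rw [h t ht, hex t ht]
  have h2 := coeff_fixed A w _ hw y h1
  have h3 : ∀ j, (∑ i, M i * o i j) / (r : Qb) ∈ A := fun j =>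
    div_mem' A hr hA ((IntermediateField.mem_fixedField_iff _ _).2 (h2 j))
      (sum_mul_mem_nonunits A M _ hM fun i => hoA i j)
  have h4 := h1 1 (Ine A).one_mem
  simp only [AlgEquiv.one_apply] at h4
  rw [h4, Finset.sum_div]
  refine sum_mem fun j _ => ?_
  rw [mul_div_right_comm]
  exact A.mul_mem _ _ (h3 j) (hwA j)

/-- **(LX)** with an arbitrary finite index type. -/
theorem div_mem_of_sep' {ι : Type*} [Fintype ι] (y : Qb) (M x : ι → Qb)
    (hM : ∀ k, M k ∈ A.nonunits) (hx : ∀ k, x k ∈ A)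
    (h : ∀ t ∈ Ine A, t y = ∑ k, M k * t (x k)) : y / (r : Qb) ∈ A := by
  let e := Fintype.equivFin ι
  refine div_mem_of_sep A hr hA y (fun i => M (e.symm i)) (fun i => x (e.symm i)) (fun i => hM _)
    (fun i => hx _) fun t ht => ?_
  rw [h t ht]
  exact (Equiv.sum_comp e.symm (fun i => M i * t (x i))).symm

/-- **(C2)** -/
theorem exists_fixed_valuation_eq {n : ℕ} (α : Qb) (hα : α ≠ 0) (a b : Fin n → Qb)
    (ha : ∀ i, a i ∈ A) (hb : ∀ i, b i ∈ A) (h : ∀ t ∈ Ine A, α / t α = ∑ i, a i * t (b i)) :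
    ∃ c : Qb, (∀ t ∈ Ine A, t c = c) ∧ c ≠ 0 ∧ A.valuation α = A.valuation c := by
  obtain ⟨m, w, o, hwA, hw, hoA, hex⟩ := exists_expansion A hr hA a b hb
  set C : Fin m → Qb := fun j => ∑ i, a i * o i j with hC
  have hCA : ∀ j, C j ∈ A := fun j => sum_mul_mem A a _ ha fun i => hoA i j
  have h1 : ∀ t ∈ Ine A, t α⁻¹ = ∑ j, (C j / α) * t (w j) := fun t ht => by
    have h2 := (h t ht).trans (hex t ht)
    have h3 : t α⁻¹ = (α / t α) / α := by
      rw [map_inv₀]; field_simp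
    rw [h3, h2, Finset.sum_div]
    refine Finset.sum_congr rfl fun j _ => ?_
    rw [mul_div_right_comm]
  have h2 := coeff_fixed A w _ hw _ h1
  have h4 := (h 1 (Ine A).one_mem).trans (hex 1 (Ine A).one_mem)
  simp only [AlgEquiv.one_apply] at h4
  rw [div_self hα] at h4
  have h5 : ∃ j, A.valuation (C j) = 1 := by
    by_contra hcon
    push Not at hcon
    have h6 : (∑ j, C j * w j) ∈ A.nonunits :=
      sum_mul_mem_nonunits A C w (fun j => (ValuationSubring.mem_nonunits_iff A).2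
        (lt_of_le_of_ne ((A.valuation_le_one_iff _).2 (hCA j)) (hcon j))) hwA
    rw [← h4, ValuationSubring.mem_nonunits_iff, map_one] at h6
    exact lt_irrefl _ h6
  obtain ⟨j, hj⟩ := h5
  have hj0 : C j ≠ 0 := fun h0 => by rw [h0, map_zero] at hj; exact zero_ne_one hj
  refine ⟨(C j / α)⁻¹, fun t ht => by rw [map_inv₀, h2 j t ht], inv_ne_zero (div_ne_zero hj0 hα), ?_⟩
  rw [map_inv₀, map_div₀, hj, one_div, inv_inv]

/-- **(C2)**, Kummer form. -/
theorem dvd_padicValRat_of_sep {n : ℕ} (α : Qb) (e : ℕ) (q : ℚ) (hq : q ≠ 0)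
    (hαq : α ^ e = algebraMap ℚ Qb q) (a b : Fin n → Qb)
    (ha : ∀ i, a i ∈ A) (hb : ∀ i, b i ∈ A) (h : ∀ t ∈ Ine A, α / t α = ∑ i, a i * t (b i)) :
    (e : ℤ) ∣ padicValRat r q := by
  rcases Nat.eq_zero_or_pos e with rfl | he
  · rw [pow_zero] at hαq
    have h1 : q = 1 := (algebraMap ℚ Qb).injective (by rw [← hαq, map_one])
    rw [h1, padicValRat.one]
    simp
  have hα : α ≠ 0 := by
    rintro rfl
    rw [zero_pow he.ne'] at hαq
    exact hq ((map_eq_zero _).1 hαq.symm)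
  obtain ⟨c, hc, hc0, hv⟩ := exists_fixed_valuation_eq A hr hA α hα a b ha hb h
  obtain ⟨k, hk⟩ := exists_zpow_of_fixed A hr hA hc0 hc
  have h1 := congrArg A.valuation hαq
  rw [map_pow, hv, hk, valuation_rat A hr hA q hq, ← zpow_natCast, ← zpow_mul] at h1
  exact ⟨k, by rw [← zpow_valuation_injective A hr hA h1, mul_comm]⟩

/-- `v(ξ - 1) > v(r)` for a nontrivial `r`-th root of unity, `r` odd. -/
theorem eq_one_of_div_mem (hr2 : r ≠ 2) {ξ : Qb} (hξ : ξ ^ r = 1) (h : (ξ - 1) / (r : Qb) ∈ A) :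
    ξ = 1 := by
  by_contra hne
  obtain ⟨k, rfl⟩ : ∃ k, r = k + 1 := ⟨r - 1, (Nat.succ_pred_eq_of_pos hr.pos).symm⟩
  have hk2 : 2 ≤ k := by
    have := hr.two_le
    omega
  have hprim : IsPrimitiveRoot ξ (k + 1) := by
    have : Fact (k + 1).Prime := ⟨hr⟩
    have h1 := orderOf_eq_prime hξ hne
    rw [← h1]
    exact IsPrimitiveRoot.orderOf ξ
  have hprod := hprim.prod_pow_sub_one_eq_order
  have hξA : ξ ∈ A := (A.valuation_le_one_iff _).1 (valuation_eq_one_of_pow A hr.pos hξ).le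
  set p := A.valuation (ξ - 1) with hp
  have hp0 : p ≠ 0 := (Valuation.ne_zero_iff _).2 (sub_ne_zero.2 hne)
  have hr0 : A.valuation ((k + 1 : ℕ) : Qb) ≠ 0 :=
    (Valuation.ne_zero_iff _).2 (Nat.cast_ne_zero.2 hr.ne_zero)
  have hr1 : A.valuation ((k + 1 : ℕ) : Qb) < 1 := (ValuationSubring.mem_nonunits_iff A).1 hA
  have h1 : p ≤ A.valuation ((k + 1 : ℕ) : Qb) := by
    rw [← A.valuation_le_one_iff, map_div₀, div_le_one₀ (zero_lt_iff.2 hr0)] at h
    exact h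
  have h2 : A.valuation ((k + 1 : ℕ) : Qb) ≤ p ^ k := by
    have h3 : A.valuation (∏ i ∈ Finset.range k, (ξ ^ (i + 1) - 1)) ≤ p ^ (Finset.range k).card := by
      rw [map_prod]
      refine Finset.prod_le_pow_card _ _ _ fun i _ => ?_
      have h4 : ξ ^ (i + 1) - 1 = (∑ l ∈ Finset.range (i + 1), ξ ^ l) * (ξ - 1) :=
        (geom_sum_mul ξ (i + 1)).symm
      rw [h4, map_mul]
      refine mul_le_of_le_one_left' ((A.valuation_le_one_iff _).2 ?_)
      exact sum_mem fun l _ => pow_mem hξA l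
    rw [Finset.card_range] at h3
    have h7 : A.valuation ((k + 1 : ℕ) : Qb) =
        A.valuation (∏ i ∈ Finset.range k, (ξ ^ (i + 1) - 1)) := by
      push_cast
      rw [← hprod, map_mul, map_pow, Valuation.map_neg, map_one, one_pow, one_mul]
    rw [h7]
    exact h3
  have hp1 : p < 1 := lt_of_le_of_lt h1 hr1
  have h5 : p ^ k ≤ p ^ 2 := pow_le_pow_right_of_le_one' hp1.le hk2
  have h6 : p ^ 2 < p := by
    rw [pow_two]
    exact mul_lt_of_lt_one_right (zero_lt_iff.2 hp0) hp1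
  exact lt_irrefl _ (lt_of_le_of_lt (h1.trans (h2.trans h5)) h6)

omit hr hA in
/-- inertia acting on `Qb`. -/
def ineAct : Ine A →* RingAut Qb where
  toFun t := (t : GQ).toRingEquiv
  map_one' := rfl
  map_mul' _ _ := rfl

omit hr hA in
@[simp] theorem ineAct_apply (t : Ine A) (x : Qb) : ineAct A t x = (t : GQ) x := rfl

/-- the explicit data give `S19.IsSep` for the inertia group. -/
theorem isSep_of_data (u : GQ → Qb) {n : ℕ} (a b : Fin n → Qb) (ha : ∀ i, a i ∈ A)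
    (hb : ∀ i, b i ∈ A) (h : ∀ t ∈ Ine A, u t = ∑ i, a i * t (b i)) :
    S19.IsSep (ineAct A) A (fun t : Ine A => u t) :=
  ⟨n, a, b, ha, fun i t => (inertia_map_mem_iff A hr hA t.2 _).2 (hb i), fun t => h t t.2⟩

omit hr hA in
/-- and conversely. -/
theorem data_of_isSep (u : GQ → Qb) (h : S19.IsSep (ineAct A) A (fun t : Ine A => u t)) :
    ∃ (n : ℕ) (a b : Fin n → Qb), (∀ i, a i ∈ A) ∧ (∀ i, b i ∈ A) ∧
      ∀ t ∈ Ine A, u t = ∑ i, a i * t (b i) := by
  obtain ⟨n, a, b, ha, hb, h⟩ := h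
  exact ⟨n, a, b, ha, fun i => hb i 1, fun t ht => h ⟨t, ht⟩⟩

/-- **(C1)** -/
theorem eq_one_of_sep (hr2 : r ≠ 2) (f : GQ → Qb)
    (hmul : ∀ s ∈ Ine A, ∀ t ∈ Ine A, f (s * t) = f s * f t) (hpow : ∀ t ∈ Ine A, f t ^ r = 1)
    {n : ℕ} (a b : Fin n → Qb) (ha : ∀ i, a i ∈ A) (hb : ∀ i, b i ∈ A)
    (h : ∀ t ∈ Ine A, t (f t⁻¹) = ∑ i, a i * t (b i)) : ∀ s ∈ Ine A, f s = 1 := by
  intro s hs
  obtain ⟨m, w, o, hwA, hw, hoA, hex⟩ := exists_expansion A hr hA a b hb
  set C : Fin m → Qb := fun j => ∑ i, a i * o i j with hC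
  have hCA : ∀ j, C j ∈ A := fun j => sum_mul_mem A a _ ha fun i => hoA i j
  set u : GQ → Qb := fun t => t (f t⁻¹) with hu
  have h1 : ∀ t ∈ Ine A, u t = ∑ j, C j * t (w j) := fun t ht => (h t ht).trans (hex t ht)
  -- the twisted function
  have h2 : ∀ t ∈ Ine A, s (u (s⁻¹ * t)) = u t * t (f s) := fun t ht => by
    simp only [hu, AlgEquiv.mul_apply, mul_inv_rev, inv_inv]
    rw [← AlgEquiv.mul_apply s, mul_inv_cancel, AlgEquiv.one_apply,
      hmul _ ((Ine A).inv_mem ht) _ hs, map_mul]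
  have h3 : ∀ t ∈ Ine A, u t * t (f s - 1) = ∑ j, (s (C j) - C j) * t (w j) := fun t ht => by
    have h4 := twist_expansion A w C u h1 hs ht
    simp only [sub_mul, Finset.sum_sub_distrib]
    rw [← h4, ← h1 t ht, h2 t ht, map_sub, map_one]
    ring
  have h4 : ∀ t ∈ Ine A, u t ^ r = 1 := fun t ht => by
    simp only [hu]
    rw [← map_pow, hpow _ ((Ine A).inv_mem ht), map_one]
  obtain ⟨n', a', b', ha', hb', h5⟩ := data_of_isSep A (fun t => u t ^ (r - 1))
    ((isSep_of_data A hr hA u a b ha hb h).pow (r - 1))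
  refine eq_one_of_div_mem A hr hA hr2 (hpow s hs) ?_
  refine div_mem_of_sep' A hr hA (ι := Fin n' × Fin m) (f s - 1)
    (fun x => a' x.1 * (s (C x.2) - C x.2)) (fun x => b' x.1 * w x.2) (fun x => ?_)
    (fun x => A.mul_mem _ _ (hb' _) (hwA _)) fun t ht => ?_
  · rw [ValuationSubring.mem_nonunits_iff, map_mul]
    rw [mul_comm]
    exact mul_lt_one_of_lt_of_le
      ((ValuationSubring.mem_nonunits_iff A).1 (inertia_sub_mem_nonunits A hr hA hs (hCA _)))
      ((A.valuation_le_one_iff _).2 (ha' _))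
  · have h6 : t (f s - 1) = u t ^ (r - 1) * (u t * t (f s - 1)) := by
      rw [← mul_assoc, ← pow_succ, Nat.sub_add_cancel hr.pos, h4 t ht, one_mul]
    rw [h6, h3 t ht, h5 t ht, Finset.sum_mul_sum, ← Finset.sum_product']
    refine Finset.sum_congr rfl fun x _ => ?_
    rw [map_mul]
    ring

end Fermat.Agent.S15.W

end
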